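import Mathlib
import Fermat.Agent.FF2.S32.Factor
import Fermat.Agent.FF2.S32.Extract
import Fermat.Agent.S53.BurnsideTwo

/-!
# PROGRAMME II, kernel KV [S1a], leaf KV-3: Boston–Lenstra–Ribet + Morita over a field

`κ` a field, `G` a group.

* `exists_equivariant_embedding` (matrix form): `ρ : G →* M₂(κ)` with `κ[G] → M₂(κ)` onto, `N ≠ 0` a
  `κ`-vector space with a `G`-action `α` such that every `α g` satisfies the characteristic
  polynomial of `ρ g`.  Then there is an injective `κ`-linear `J : κ² → N` with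
  `J (ρ g *ᵥ w) = α g (J w)`: `N` contains a copy of `ρ`.  (Landed BLR module form
  `FF2/S32/Factor.blrModuleHom` + `FF2/S32/Morita` + `Extract`.)
* `subalgebra_eq_top_of_rankOne` : an irreducible subalgebra of `End_κ(V)` (`V` finite dimensional,
  ANY field) containing a rank one element is everything (second half of the landed Burnside);
* `subalgebra_eq_top_of_involution` : `dim V = 2`, `2 ≠ 0` in `κ`: an irreducible subalgebra
  containing an involution `c ≠ ± 1` is everything (no algebraic closedness: the "odd" case);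
* `rhoLin_surjective_of_involution` : the matrix form, `κ[G] → M₂(κ)` is onto;
* **`exists_equivariant_embedding_of_irreducible`** (basis-free form for the consumer): `T` a
  `G`-representation of dimension two, irreducible, with an involution `τ c ≠ ± 1`; `N ≠ 0` with
  `α g ² = tr(τ g) α g - det(τ g)`.  Then there is an injective equivariant `J : T →ₗ[κ] N`.
-/

set_option autoImplicit false
set_option linter.style.haveILetI false

noncomputable section

namespace Fermat.Agent.FF4.KV.BLRMorita

open Matrix Module Fermat.Agent.FF2.S32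

/-! ### a copy of `ρ` inside a Cayley–Hamilton module -/

section Embedding

variable {κ G N : Type*} [Field κ] [Group G] [AddCommGroup N] [Module κ N]

/-- **BLR + Morita over a field.** A nonzero module on which every `g` satisfies the characteristic
polynomial of `ρ g` (`κ[G] → M₂(κ)` onto) contains a copy of `ρ`. -/
theorem exists_equivariant_embedding [Nontrivial N]
    (ρ : G →* Matrix (Fin 2) (Fin 2) κ) (α : G →* Module.End κ N)
    (hsurj : Function.Surjective (rhoLin ρ))
    (hch : ∀ g : G, α g * α g = (ρ g).trace • α g - (ρ g).det • (1 : Module.End κ N)) :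
    ∃ J : (Fin 2 → κ) →ₗ[κ] N, Function.Injective J ∧ ∀ g w, J (ρ g *ᵥ w) = α g (J w) := by
  set β := blrModuleHom ρ α hsurj hch with hβ
  have hβρ : ∀ g, β (ρ g) = α g := fun g => blrModuleHom_rho ρ α hsurj hch g
  -- `P ≠ 0`
  obtain ⟨n, hn⟩ := exists_ne (0 : N)
  have hP : ∃ x : moritaP β, x ≠ 0 := by
    by_contra hcon
    push Not at hcon
    apply hn
    apply (moritaEquiv β).injective
    rw [map_zero]
    exact Prod.ext (hcon _) (hcon _)
  obtain ⟨x, hx⟩ := hP
  let xs : Fin 1 → moritaP β := fun _ => x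
  let J : (Fin 2 → κ) →ₗ[κ] N := (LinearMap.proj (0 : Fin 1)).comp (extractLin β xs)
  refine ⟨J, ?_, fun g w => ?_⟩
  · rw [injective_iff_map_eq_zero]
    intro w hw
    have h1 : moritaEquiv β (extractLin β xs w 0) = (w 0 • x, w 1 • x) :=
      moritaEquiv_extractLin β xs w 0
    have h2 : extractLin β xs w 0 = 0 := hw
    rw [h2, map_zero] at h1
    have h3 := Prod.ext_iff.1 h1
    ext j
    fin_cases j
    · exact (smul_eq_zero.mp h3.1.symm).resolve_right hx
    · exact (smul_eq_zero.mp h3.2.symm).resolve_right hx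
  · show extractLin β xs (ρ g *ᵥ w) 0 = α g (extractLin β xs w 0)
    rw [extractLin_mulVec, hβρ]

end Embedding

/-! ### Burnside in dimension two without algebraic closedness: the odd case -/

section Burnside

open Fermat.Agent.S53.BurnsideTwo

variable {K V : Type*} [Field K] [AddCommGroup V] [Module K V]

/-- An irreducible subalgebra of `End_K(V)` containing a rank one element is everything
(any field; the second half of the landed `subalgebra_eq_top_of_irreducible`). -/
theorem subalgebra_eq_top_of_rankOne [FiniteDimensional K V] (B : Subalgebra K (Module.End K V))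
    (hirr : ∀ W : Submodule K V, (∀ b ∈ B, ∀ x ∈ W, b x ∈ W) → W = ⊥ ∨ W = ⊤)
    {φ : Dual K V} {w : V} (hφ : φ ≠ 0) (hw : w ≠ 0) (hφw : φ.smulRight w ∈ B) : B = ⊤ := by
  rw [eq_top_iff]
  rintro S -
  let e : Basis (Fin (finrank K V)) K V := Module.finBasis K V
  have hS : S = ∑ i, (e.coord i).smulRight (S (e i)) := by
    apply LinearMap.ext
    intro y
    have h := congrArg S (e.sum_repr y)
    rw [map_sum] at h
    simp only [map_smul] at h
    rw [← h]
    simp [LinearMap.sum_apply]
  rw [hS]
  refine B.sum_mem fun i _ => ?_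
  obtain ⟨b, hb, hbw⟩ := exists_mem_apply_eq B hirr hw (S (e i))
  obtain ⟨b', hb', hb'φ⟩ := exists_mem_comp_eq B hirr hφ (e.coord i)
  have : (e.coord i).smulRight (S (e i)) = b * (φ.smulRight w) * b' := by
    apply LinearMap.ext
    intro y
    simp [← hb'φ, ← hbw]
  rw [this]
  exact B.mul_mem (B.mul_mem hb hφw) hb'

/-- **Burnside, odd case.** In dimension two over a field with `2 ≠ 0`, an irreducible subalgebra
containing an involution `c ≠ ± 1` is everything. -/
theorem subalgebra_eq_top_of_involution (hV : finrank K V = 2) (h2 : (2 : K) ≠ 0)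
    (B : Subalgebra K (Module.End K V))
    (hirr : ∀ W : Submodule K V, (∀ b ∈ B, ∀ x ∈ W, b x ∈ W) → W = ⊥ ∨ W = ⊤)
    {c : Module.End K V} (hc : c ∈ B) (hcc : c * c = 1) (hc1 : c ≠ 1) (hc2 : c ≠ -1) :
    B = ⊤ := by
  have : FiniteDimensional K V := Module.finite_of_finrank_pos (by omega)
  -- the idempotent `e = (1 + c) / 2`
  set e : Module.End K V := (2 : K)⁻¹ • (1 + c) with he
  have heB : e ∈ B := B.smul_mem (B.add_mem B.one_mem hc) _
  have hee : e * e = e := by
    rw [he, smul_mul_smul_comm, mul_add, add_mul, add_mul, one_mul, mul_one, one_mul, hcc]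
    have : (1 : Module.End K V) + c + (c + 1) = (2 : K) • (1 + c) := by
      rw [two_smul]; abel
    rw [this, smul_smul, mul_assoc, inv_mul_cancel₀ h2, mul_one]
  have he0 : e ≠ 0 := by
    intro h
    apply hc2
    have h1 : (1 : Module.End K V) + c = 0 := by
      have := congrArg (fun x => (2 : K) • x) h
      simpa [he, smul_smul, mul_inv_cancel₀ h2] using this
    exact eq_neg_of_add_eq_zero_right h1
  have he1 : e ≠ 1 := by
    intro h
    apply hc1
    have h1 : (1 : Module.End K V) + c = (2 : K) • (1 : Module.End K V) := by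
      have := congrArg (fun x => (2 : K) • x) h
      simpa [he, smul_smul, mul_inv_cancel₀ h2] using this
    rw [two_smul] at h1
    exact add_left_cancel h1
  -- `w` in the range, `u` in the kernel
  obtain ⟨v₀, hv₀⟩ : ∃ v₀, e v₀ ≠ 0 := by
    by_contra hcon
    push Not at hcon
    exact he0 (LinearMap.ext hcon)
  obtain ⟨v₁, hv₁⟩ : ∃ v₁, v₁ - e v₁ ≠ 0 := by
    by_contra hcon
    push Not at hcon
    apply he1
    apply LinearMap.ext
    intro v
    have := hcon v
    rw [sub_eq_zero] at this
    rw [Module.End.one_apply]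
    exact this.symm
  set w := e v₀ with hw
  set u := v₁ - e v₁ with hu
  have hew : e w = w := by
    rw [hw, ← Module.End.mul_apply, hee]
  have heu : e u = 0 := by
    rw [hu, map_sub, ← Module.End.mul_apply, hee, sub_self]
  have hli : LinearIndependent K ![u, w] := by
    rw [LinearIndependent.pair_iff]
    intro s t hst
    have h3 := congrArg e hst
    rw [map_add, map_smul, map_smul, heu, smul_zero, zero_add, hew, map_zero] at h3
    have ht : t = 0 := (smul_eq_zero.mp h3).resolve_right hv₀
    rw [ht, zero_smul, add_zero] at hst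
    exact ⟨(smul_eq_zero.mp hst).resolve_right hv₁, ht⟩
  let bs : Basis (Fin 2) K V := basisOfLinearIndependentOfCardEqFinrank hli (by simp [hV])
  have hb0 : bs 0 = u := by simp [bs]
  have hb1 : bs 1 = w := by simp [bs]
  have hφ : bs.coord 1 ≠ 0 := by
    intro h
    have := congrArg (fun f => f (bs 1)) h
    simp at this
  have hrank : (bs.coord 1).smulRight w = e := by
    apply bs.ext
    intro i
    fin_cases i
    · show (bs.coord 1).smulRight w (bs 0) = e (bs 0)
      rw [LinearMap.smulRight_apply, Basis.coord_apply, Basis.repr_self, hb0, heu]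
      simp
    · show (bs.coord 1).smulRight w (bs 1) = e (bs 1)
      rw [LinearMap.smulRight_apply, Basis.coord_apply, Basis.repr_self, hb1, hew]
      simp
  exact subalgebra_eq_top_of_rankOne B hirr hφ hv₀ (hrank ▸ heB)

end Burnside

/-! ### the basis-free form -/

section BasisFree

variable {κ G T N : Type*} [Field κ] [Group G] [AddCommGroup T] [Module κ T]
  [AddCommGroup N] [Module κ N]

/-- The group algebra surjects onto `End_κ(T)` for an irreducible two-dimensional representation
containing an involution `≠ ± 1` (`2 ≠ 0` in `κ`). -/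
theorem lift_surjective_of_involution (hT : finrank κ T = 2) (h2 : (2 : κ) ≠ 0)
    (τ : G →* Module.End κ T)
    (hirr : ∀ U : Submodule κ T, (∀ g, ∀ x ∈ U, τ g x ∈ U) → U = ⊥ ∨ U = ⊤)
    {c : G} (hcc : τ c * τ c = 1) (hc1 : τ c ≠ 1) (hc2 : τ c ≠ -1) :
    Function.Surjective (MonoidAlgebra.lift κ (Module.End κ T) G τ) := by
  set L := MonoidAlgebra.lift κ (Module.End κ T) G τ with hL
  have hmem : ∀ g, τ g ∈ L.range := fun g => ⟨MonoidAlgebra.of κ G g, by simp [hL]⟩
  have htop : L.range = ⊤ :=
    subalgebra_eq_top_of_involution hT h2 L.range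
      (fun U hU => hirr U fun g x hx => hU _ (hmem g) x hx) (hmem c) hcc hc1 hc2
  intro S
  have : S ∈ L.range := htop ▸ Algebra.mem_top
  exact this

/-- **KV-3, basis-free form.** `T` an irreducible two-dimensional representation of `G` over `κ`
(`2 ≠ 0`) with an involution `τ c ≠ ± 1`; `N ≠ 0` a `κ[G]`-module on which every `g` satisfies
`X² - tr(τ g) X + det(τ g)`.  Then `N` contains a copy of `T`. -/
theorem exists_equivariant_embedding_of_irreducible [Nontrivial N]
    (hT : finrank κ T = 2) (h2 : (2 : κ) ≠ 0) (τ : G →* Module.End κ T)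
    (hirr : ∀ U : Submodule κ T, (∀ g, ∀ x ∈ U, τ g x ∈ U) → U = ⊥ ∨ U = ⊤)
    {c : G} (hcc : τ c * τ c = 1) (hc1 : τ c ≠ 1) (hc2 : τ c ≠ -1)
    (α : G →* Module.End κ N)
    (hch : ∀ g : G, α g * α g =
      LinearMap.trace κ T (τ g) • α g - LinearMap.det (τ g) • (1 : Module.End κ N)) :
    ∃ J : T →ₗ[κ] N, Function.Injective J ∧ ∀ g t, J (τ g t) = α g (J t) := by
  have : FiniteDimensional κ T := Module.finite_of_finrank_pos (by omega)
  let b : Basis (Fin 2) κ T := Module.finBasisOfFinrankEq κ T hT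
  let Φ : Module.End κ T ≃ₐ[κ] Matrix (Fin 2) (Fin 2) κ := LinearMap.toMatrixAlgEquiv b
  let ρ : G →* Matrix (Fin 2) (Fin 2) κ := (Φ : Module.End κ T →* Matrix (Fin 2) (Fin 2) κ).comp τ
  have hρ : ∀ g, ρ g = LinearMap.toMatrix b b (τ g) := fun g => rfl
  have hsurj : Function.Surjective (rhoLin ρ) := by
    have h1 : rhoLin ρ = (Φ : Module.End κ T →ₐ[κ] Matrix (Fin 2) (Fin 2) κ).comp
        (MonoidAlgebra.lift κ (Module.End κ T) G τ) := by
      rw [MonoidAlgebra.lift_unique' ((Φ : Module.End κ T →ₐ[κ] Matrix (Fin 2) (Fin 2) κ).comp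
        (MonoidAlgebra.lift κ (Module.End κ T) G τ)), rhoLin]
      congr 1
      ext g : 1
      simp [ρ]
    rw [h1]
    exact Φ.surjective.comp (lift_surjective_of_involution hT h2 τ hirr hcc hc1 hc2)
  have hch' : ∀ g : G, α g * α g = (ρ g).trace • α g - (ρ g).det • (1 : Module.End κ N) := by
    intro g
    rw [hρ, ← LinearMap.trace_eq_matrix_trace κ b (τ g), LinearMap.det_toMatrix b (τ g)]
    exact hch g
  obtain ⟨J₀, hJ₀, hJ₀eq⟩ := exists_equivariant_embedding ρ α hsurj hch'
  refine ⟨J₀.comp (b.equivFun : T →ₗ[κ] (Fin 2 → κ)), hJ₀.comp b.equivFun.injective,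
    fun g t => ?_⟩
  show J₀ (b.equivFun (τ g t)) = α g (J₀ (b.equivFun t))
  rw [← hJ₀eq, hρ]
  congr 1
  exact (LinearMap.toMatrix_mulVec_repr b b (τ g) t).symm

end BasisFree

/-! ### the additive form for the consumer (`κ = ZMod p`) -/

section Additive

variable {p : ℕ} [hp : Fact p.Prime] {G T : Type*} [Group G] [AddCommGroup T]
  [Module (ZMod p) T]

theorem two_ne_zero_zmod (hp2 : p ≠ 2) : (2 : ZMod p) ≠ 0 := by
  intro h
  have h3 : ((2 : ℕ) : ZMod p) = 0 := by exact_mod_cast h
  rw [ZMod.natCast_eq_zero_iff] at h3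
  exact hp2 ((Nat.prime_dvd_prime_iff_eq hp.out Nat.prime_two).mp h3)

/-- **KV-3, module form over `𝔽_p` with a group action.** -/
theorem exists_equivariant_addHom {N : Type*} [AddCommGroup N] [Module (ZMod p) N]
    [DistribMulAction G N] [Nontrivial N] (hp2 : p ≠ 2) (hT : finrank (ZMod p) T = 2)
    (τ : G →* Module.End (ZMod p) T)
    (hirr : ∀ U : Submodule (ZMod p) T, (∀ g, ∀ x ∈ U, τ g x ∈ U) → U = ⊥ ∨ U = ⊤)
    {c : G} (hcc : τ c * τ c = 1) (hc1 : τ c ≠ 1) (hc2 : τ c ≠ -1)
    (hch : ∀ (g : G) (x : N) (a d : ℤ), (a : ZMod p) = LinearMap.trace (ZMod p) T (τ g) →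
      (d : ZMod p) = LinearMap.det (τ g) → g • g • x - a • (g • x) + d • x = 0) :
    ∃ J : T →+ N, Function.Injective J ∧ ∀ g t, J (τ g t) = g • J t := by
  let α : G →* Module.End (ZMod p) N :=
    { toFun := fun g => (DistribSMul.toAddMonoidHom N g).toZModLinearMap p
      map_one' := by
        apply LinearMap.ext
        intro x
        exact one_smul G x
      map_mul' := fun g h => by
        apply LinearMap.ext
        intro x
        exact mul_smul g h x }
  have hα : ∀ g (x : N), α g x = g • x := fun g x => rfl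
  have hch' : ∀ g : G, α g * α g =
      LinearMap.trace (ZMod p) T (τ g) • α g -
        LinearMap.det (τ g) • (1 : Module.End (ZMod p) N) := by
    intro g
    apply LinearMap.ext
    intro x
    obtain ⟨a, ha⟩ := ZMod.intCast_surjective (LinearMap.trace (ZMod p) T (τ g))
    obtain ⟨d, hd⟩ := ZMod.intCast_surjective (LinearMap.det (τ g))
    have h := hch g x a d ha hd
    rw [Module.End.mul_apply, LinearMap.sub_apply, LinearMap.smul_apply, LinearMap.smul_apply,
      Module.End.one_apply, ← ha, ← hd, Int.cast_smul_eq_zsmul, Int.cast_smul_eq_zsmul, hα, hα,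
      ← sub_eq_zero, ← h]
    abel
  obtain ⟨J, hJ, hJeq⟩ := exists_equivariant_embedding_of_irreducible hT (two_ne_zero_zmod hp2)
    τ hirr hcc hc1 hc2 α hch'
  exact ⟨J.toAddMonoidHom, hJ, fun g t => by
    show J (τ g t) = g • J t
    rw [hJeq, hα]⟩

variable {X : Type*} [AddCommGroup X] [DistribMulAction G X]

/-- **KV-3, consumer form.** `T` an irreducible two-dimensional `𝔽_p[G]`-module (`p` odd) with an
involution `τ c ≠ ± 1`; `E` a nonzero `G`-stable subgroup of a `G`-module `X`, killed by `p`, on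
which every `g` satisfies `g² - a g + d = 0` for all integers `a ≡ tr(τ g)`, `d ≡ det(τ g)` (the
pointwise literal of KV-2).  Then `E` contains a `G`-stable subgroup `V`, `G`-equivariantly
isomorphic to `T`. -/
theorem exists_stable_subgroup_equiv (hp2 : p ≠ 2) (hT : finrank (ZMod p) T = 2)
    (τ : G →* Module.End (ZMod p) T)
    (hirr : ∀ U : Submodule (ZMod p) T, (∀ g, ∀ x ∈ U, τ g x ∈ U) → U = ⊥ ∨ U = ⊤)
    {c : G} (hcc : τ c * τ c = 1) (hc1 : τ c ≠ 1) (hc2 : τ c ≠ -1)
    (E : AddSubgroup X) (hE : ∀ x ∈ E, p • x = 0) (hstab : ∀ (g : G), ∀ x ∈ E, g • x ∈ E)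
    (hne : ∃ x ∈ E, x ≠ 0)
    (hch : ∀ (g : G), ∀ x ∈ E, ∀ a d : ℤ, (a : ZMod p) = LinearMap.trace (ZMod p) T (τ g) →
      (d : ZMod p) = LinearMap.det (τ g) → g • g • x - a • (g • x) + d • x = 0) :
    ∃ V : AddSubgroup X, V ≤ E ∧ (∀ (g : G), ∀ v ∈ V, g • v ∈ V) ∧
      ∃ iso : V ≃+ T, ∀ (g : G) (v : V) (hv : g • (v : X) ∈ V),
        iso ⟨g • (v : X), hv⟩ = τ g (iso v) := by
  letI : Module (ZMod p) E := AddCommGroup.zmodModule fun x => Subtype.ext (hE x x.2)
  letI : DistribMulAction G E :=
    { smul := fun g x => ⟨g • (x : X), hstab g x x.2⟩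
      one_smul := fun x => Subtype.ext (one_smul G (x : X))
      mul_smul := fun g h x => Subtype.ext (mul_smul g h (x : X))
      smul_zero := fun g => Subtype.ext (smul_zero g)
      smul_add := fun g x y => Subtype.ext (smul_add g (x : X) (y : X)) }
  have hsm : ∀ (g : G) (x : E), ((g • x : E) : X) = g • (x : X) := fun g x => rfl
  haveI : Nontrivial E := by
    obtain ⟨x, hx, hx0⟩ := hne
    exact ⟨⟨⟨x, hx⟩, 0, fun h => hx0 (congrArg Subtype.val h)⟩⟩
  obtain ⟨J, hJ, hJeq⟩ := exists_equivariant_addHom (N := E) hp2 hT τ hirr hcc hc1 hc2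
    (fun g x a d ha hd => Subtype.ext (by
      have h := hch g x x.2 a d ha hd
      simpa only [AddSubgroup.coe_add, AddSubgroup.coe_sub, AddSubgroup.coe_zsmul, hsm,
        AddSubgroup.coe_zero] using h))
  -- the subgroup `V = J(T)`
  let Jx : T →+ X := (E.subtype).comp J
  have hJx : Function.Injective Jx := Subtype.val_injective.comp hJ
  have hJxeq : ∀ g t, Jx (τ g t) = g • Jx t := fun g t => by
    show ((J (τ g t) : E) : X) = g • ((J t : E) : X)
    rw [hJeq, hsm]
  refine ⟨Jx.range, ?_, ?_, ?_⟩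
  · rintro _ ⟨t, rfl⟩
    exact (J t).2
  · rintro g _ ⟨t, rfl⟩
    exact ⟨τ g t, hJxeq g t⟩
  · refine ⟨(AddMonoidHom.ofInjective hJx).symm, fun g v hv => ?_⟩
    obtain ⟨t, ht⟩ := v.2
    have hv' : v = AddMonoidHom.ofInjective hJx t := Subtype.ext ht.symm
    have h1 : (⟨g • (v : X), hv⟩ : Jx.range) = AddMonoidHom.ofInjective hJx (τ g t) := by
      apply Subtype.ext
      show g • (v : X) = Jx (τ g t)
      rw [hJxeq, ← ht]
    rw [h1, hv', AddEquiv.symm_apply_apply, AddEquiv.symm_apply_apply]

end Additive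

end Fermat.Agent.FF4.KV.BLRMorita
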